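/-
S03 wiring: no Frey package exists, given
  (S04) the Frey curve is modular,
  (S09) its mod-p representation is irreducible (Mazur),
  (S45) modular + irreducible gives a nonzero weight-2 cusp form on Gamma0(2) (Ribet),
  (S07) there is no such form.
All four inputs are hypotheses here, so this file has no dependency on unfinished work.
-/
import Mathlib
import Fermat.Prelude.Def_FLTPrelim_FreyPackage
import Fermat.Prelude.Def_FLTPrelim_GaloisRep
import Fermat.Prelude.Def_FLTPrelim_Modularity

set_option autoImplicit false
open WeierstrassCurve WeierstrassCurve.Affine WeierstrassCurve.Affine.Point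

namespace Fermat.Agent.S03

theorem no_frey_of_inputs
    (hmod : ∀ P : FreyPackage, P.freyCurve.IsModular)
    (hirr : ∀ P : FreyPackage,
      GaloisRepIsIrreducible (K := AlgebraicClosure ℚ) ℚ P.freyCurve P.p)
    (hlow : ∀ P : FreyPackage, P.freyCurve.IsModular →
      GaloisRepIsIrreducible (K := AlgebraicClosure ℚ) ℚ P.freyCurve P.p →
      ∃ f : CuspForm (CongruenceSubgroup.Gamma0 2) 2, f ≠ 0)
    (hzero : ∀ f : CuspForm (CongruenceSubgroup.Gamma0 2) 2, f = 0)
    (P : FreyPackage) : False := by
  obtain ⟨f, hf⟩ := hlow P (hmod P) (hirr P)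
  exact hf (hzero f)

end Fermat.Agent.S03
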